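import Mathlib
import Fermat.Agent.LT.T6.H438.HasseQ3

/-!
# Row LT, tower T6, leaf T6.00q.4 `AlgBC438` (helper857, OFF-MAIN)

Registry row 1043.  Statement: `Fermat.Agent.LT.T6.H438.AlgBC438` of
`Fermat/Agent/LT/T6/H438/HasseQ3.lean` (helper438@9c79cc886, sha256 7b061f61..., byte-identical
copy).  Mathlib only.

Pure field theory.  `L` a quadratic field, `M = L(r)`, `r² = -3`, `r ∉ L`.  If
`N_{L/ℚ}(x) = a² + 3 b²` then `N_{M/L}(x ± (a + b r)) = x · (Tr_{L/ℚ} x ± 2 a)`; if both factors
`Tr x ± 2a` vanish then `a = 0`, `Tr x = 0`, `x² = - N x = - 3 b²`, so `(x / b)² = -3` in `L`.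

* `quad_cayley857`: Cayley--Hamilton in a free algebra of rank `2`:
  `y² - Tr(y) y + N(y) = 0`.
* `trace_root857`, `norm_add_mul_root857`: `Tr_{M/L}(r) = 0`, `N_{M/L}(u + v r) = u² + 3 v²`.
* `algBC857 : AlgBC438`.
-/

set_option autoImplicit false

noncomputable section

namespace Fermat.Agent.LT.T6.H857

open Fermat.Agent.LT.T6.H438

/-- Cayley--Hamilton in a field extension of degree `2`: `y² - Tr(y) y + N(y) = 0`. -/
theorem quad_cayley857 {R S : Type*} [Field R] [Field S] [Algebra R S]
    (h : Module.finrank R S = 2) (y : S) :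
    y * y - algebraMap R S (Algebra.trace R S y) * y + algebraMap R S (Algebra.norm R y) = 0 := by
  have : Module.Finite R S := Module.finite_of_finrank_pos (by omega)
  let b : Module.Basis (Fin 2) R S := Module.finBasisOfFinrankEq R S h
  have hinj := Algebra.leftMulMatrix_injective b
  apply hinj
  have hch := Matrix.aeval_self_charpoly (Algebra.leftMulMatrix b y)
  rw [Matrix.charpoly_fin_two] at hch
  simp only [map_add, map_sub, map_mul, Polynomial.aeval_X, Polynomial.aeval_C, map_pow] at hch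
  rw [map_zero, map_add, map_sub, map_mul, map_mul, AlgHom.commutes, AlgHom.commutes,
    Algebra.trace_eq_matrix_trace b, Algebra.norm_eq_matrix_det b]
  rw [← hch, pow_two]

/-- In an extension `M / L` of degree `2` with `r² = -3`, `r ∉ L`: `Tr_{M/L}(r) = 0`. -/
theorem trace_root857 {L M : Type*} [Field L] [Field M] [Algebra L M]
    (h : Module.finrank L M = 2) (hno : ∀ s : L, s ^ 2 ≠ -3) (r : M) (hr : r ^ 2 = -3) :
    Algebra.trace L M r = 0 := by
  by_contra ht
  have hch := quad_cayley857 h r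
  -- `Tr(r) r = N(r) - 3`
  have h1 : algebraMap L M (Algebra.trace L M r) * r
      = algebraMap L M (Algebra.norm L r - 3) := by
    have : r * r = -3 := by rw [← pow_two]; exact hr
    rw [this] at hch
    rw [map_sub, map_ofNat]
    linear_combination -hch
  have h2 : r = algebraMap L M ((Algebra.norm L r - 3) / Algebra.trace L M r) := by
    rw [map_div₀, ← h1]
    field_simp [show algebraMap L M (Algebra.trace L M r) ≠ 0 from
      fun h0 => ht ((map_eq_zero _).1 h0)]
  apply hno ((Algebra.norm L r - 3) / Algebra.trace L M r)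
  apply (algebraMap L M).injective
  rw [map_pow, ← h2, hr, map_neg, map_ofNat]

/-- In an extension `M / L` of degree `2` with `r² = -3`, `r ∉ L`:
`N_{M/L}(u + v r) = u² + 3 v²`. -/
theorem norm_add_mul_root857 {L M : Type*} [Field L] [Field M] [Algebra L M]
    (h : Module.finrank L M = 2) (hno : ∀ s : L, s ^ 2 ≠ -3) (r : M) (hr : r ^ 2 = -3)
    (u v : L) :
    Algebra.norm L (algebraMap L M u + algebraMap L M v * r) = u ^ 2 + 3 * v ^ 2 := by
  have : Module.Finite L M := Module.finite_of_finrank_pos (by omega)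
  set y : M := algebraMap L M u + algebraMap L M v * r with hy
  have htr : Algebra.trace L M y = 2 * u := by
    rw [hy, map_add, Algebra.trace_algebraMap, h, ← Algebra.smul_def, map_smul,
      trace_root857 h hno r hr, smul_zero, add_zero, nsmul_eq_mul]
    norm_num
  have hch := quad_cayley857 h y
  rw [htr] at hch
  apply (algebraMap L M).injective
  have hrr : r * r = -3 := by rw [← pow_two]; exact hr
  have : algebraMap L M (Algebra.norm L y)
      = algebraMap L M u ^ 2 + 3 * algebraMap L M v ^ 2 := by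
    have e : algebraMap L M (Algebra.norm L y)
        = algebraMap L M (2 * u) * y - y * y := by linear_combination hch
    rw [e, hy, map_mul, map_ofNat]
    linear_combination (-(algebraMap L M v) ^ 2) * hrr
  rw [this, map_add, map_mul, map_pow, map_pow, map_ofNat]

/-- The key identity: `N_{M/L}(x + ε (a + b r)) = x (Tr_{L/ℚ} x + 2 ε a)` for `ε = ± 1`, when
`N_{L/ℚ} x = a² + 3 b²`. -/
theorem norm_shift857 {L M : Type*} [Field L] [Field M] [Algebra ℚ L] [Algebra L M]
    (hL : Module.finrank ℚ L = 2) (hM : Module.finrank L M = 2) (hno : ∀ s : L, s ^ 2 ≠ -3)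
    (r : M) (hr : r ^ 2 = -3) (x : L) (a b : ℚ)
    (hN : Algebra.norm ℚ x = a ^ 2 + 3 * b ^ 2) (ε : ℚ) (hε : ε ^ 2 = 1) :
    Algebra.norm L (algebraMap L M (x + algebraMap ℚ L (ε * a))
        + algebraMap L M (algebraMap ℚ L (ε * b)) * r)
      = x * algebraMap ℚ L (Algebra.trace ℚ L x + 2 * ε * a) := by
  rw [norm_add_mul_root857 hM hno r hr]
  have hchx := quad_cayley857 hL x
  have hN' : algebraMap ℚ L (Algebra.norm ℚ x)
      = algebraMap ℚ L a ^ 2 + 3 * algebraMap ℚ L b ^ 2 := by
    rw [hN, map_add, map_mul, map_pow, map_pow, map_ofNat]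
  have hε' : algebraMap ℚ L ε ^ 2 = 1 := by rw [← map_pow, hε, map_one]
  simp only [map_add, map_mul, map_ofNat]
  linear_combination hchx + (algebraMap ℚ L a ^ 2 + 3 * algebraMap ℚ L b ^ 2) * hε' - hN'

/-- **Leaf T6.00q.4 (ALG-B)**: `Fermat.Agent.LT.T6.H438.AlgBC438`. -/
theorem algBC857 : AlgBC438 := by
  intro L M _ _ _ _ _ hp x hx hab
  obtain ⟨a, b, hN⟩ := hab
  obtain ⟨r, hr⟩ := hp.root
  have hfinM : Module.Finite L M := Module.finite_of_finrank_pos (by rw [hp.degM]; norm_num)
  have hkey := norm_shift857 hp.degL hp.degM hp.noRoot r hr x a b hN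
  -- the conclusion from a non-vanishing factor
  have hconcl : ∀ ε : ℚ, ε ^ 2 = 1 → Algebra.trace ℚ L x + 2 * ε * a ≠ 0 →
      ∃ (c : ℚ) (y : M), c ≠ 0 ∧ y ≠ 0 ∧ x = algebraMap ℚ L c * Algebra.norm L y := by
    intro ε hε hne
    have hne' : algebraMap ℚ L (Algebra.trace ℚ L x + 2 * ε * a) ≠ 0 :=
      fun h0 => hne ((map_eq_zero _).1 h0)
    refine ⟨(Algebra.trace ℚ L x + 2 * ε * a)⁻¹,
      algebraMap L M (x + algebraMap ℚ L (ε * a))
        + algebraMap L M (algebraMap ℚ L (ε * b)) * r, inv_ne_zero hne, ?_, ?_⟩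
    · intro h0
      have h1 := hkey ε hε
      rw [h0, Algebra.norm_zero] at h1
      exact mul_ne_zero hx hne' h1.symm
    · rw [hkey ε hε, map_inv₀]
      field_simp
  by_cases h1 : Algebra.trace ℚ L x + 2 * 1 * a = 0
  swap
  · exact hconcl 1 (by norm_num) h1
  by_cases h2 : Algebra.trace ℚ L x + 2 * (-1) * a = 0
  swap
  · exact hconcl (-1) (by norm_num) h2
  -- both factors vanish: `a = 0`, `Tr x = 0`, `x² = -3 b²`
  exfalso
  have ha : a = 0 := by linarith
  have ht : Algebra.trace ℚ L x = 0 := by linarith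
  have hchx := quad_cayley857 hp.degL x
  rw [ht, hN, ha] at hchx
  have hx2 : x * x = -(3 * algebraMap ℚ L b ^ 2) := by
    have e : algebraMap ℚ L ((0 : ℚ) ^ 2 + 3 * b ^ 2) = 3 * algebraMap ℚ L b ^ 2 := by
      rw [map_add, map_mul, map_pow, map_pow, map_zero, map_ofNat]
      ring
    rw [e, map_zero] at hchx
    linear_combination hchx
  have hb : algebraMap ℚ L b ≠ 0 := by
    intro hb0
    rw [hb0] at hx2
    have : x * x = 0 := by rw [hx2]; ring
    exact hx (mul_self_eq_zero.1 this)
  apply hp.noRoot (x / algebraMap ℚ L b)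
  rw [div_pow, pow_two x, hx2]
  field_simp

end Fermat.Agent.LT.T6.H857

end
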